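import Fermat.Agent.S56.Font.LT.Eis
import Fermat.Agent.S36.K0
import Fermat.Agent.Common.PlaceBridgeLocal

/-!
# S56 / Font / LT : the instance `(I_A, ℚ̄, A.valuation, p)`
-/

set_option autoImplicit false

namespace Fermat.Agent.S56.Font

open scoped NumberField
open IsDedekindDomain Fermat.Agent.Bridge

local notation "Qbar" => AlgebraicClosure ℚ
local notation "GQ" => (AlgebraicClosure ℚ ≃ₐ[ℚ] AlgebraicClosure ℚ)

section NF

variable {K : Type*} [Field K] [NumberField K] {φ : K →+* Qbar} {A : ValuationSubring Qbar}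
  {ℓ : ℕ}

/-- `v(ℓ) = exp (- e)`. -/
theorem valuation_natCast_eq_exp_neg_ramificationIdx (hℓ : ℓ.Prime) (hA : A.LiesOverPrime ℓ)
    {v : HeightOneSpectrum (𝓞 K)} (hv : v.asIdeal = primeBelow φ A) :
    v.valuation K (ℓ : K) = WithZero.exp (-((primeBelow φ A).ramificationIdx ℤ : ℤ)) := by
  have h1 : v.valuation K (ℓ : K) = v.intValuation (ℓ : 𝓞 K) := by
    rw [← v.valuation_of_algebraMap (K := K)]
    simp
  have h0 : v.intValuation (ℓ : 𝓞 K) ≠ 0 :=
    v.intValuation_ne_zero _ (by exact_mod_cast hℓ.ne_zero)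
  obtain ⟨m, hm⟩ : ∃ m : ℕ, v.intValuation (ℓ : 𝓞 K) = WithZero.exp (-(m : ℤ)) := by
    have hle : v.intValuation (ℓ : 𝓞 K) ≤ 1 := v.intValuation_le_one _
    refine ⟨(- WithZero.log (v.intValuation (ℓ : 𝓞 K))).toNat, ?_⟩
    conv_lhs => rw [← WithZero.exp_log h0]
    congr 1
    have h2 : WithZero.log (v.intValuation (ℓ : 𝓞 K)) ≤ 0 := by
      rw [← WithZero.exp_log h0, ← WithZero.exp_zero, WithZero.exp_le_exp] at hle
      exact hle
    rw [Int.toNat_of_nonneg (by omega)]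
    ring
  have := liesOver_span (φ := φ) hℓ hA
  have hp0 : Ideal.span {(ℓ : ℤ)} ≠ ⊥ := by
    simp [hℓ.ne_zero]
  have h3 := Ideal.ramificationIdx'_eq_ramificationIdx (Ideal.span {(ℓ : ℤ)}) (primeBelow φ A) hp0
  have hmap : ∀ j : ℕ, (Ideal.span {(ℓ : ℤ)}).map (algebraMap ℤ (𝓞 K)) ≤ primeBelow φ A ^ j ↔
      v.intValuation (ℓ : 𝓞 K) ≤ WithZero.exp (-(j : ℤ)) := by
    intro j
    rw [v.intValuation_le_pow_iff_mem, hv, Ideal.map_span, Set.image_singleton, Ideal.span_le,
      Set.singleton_subset_iff]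
    simp
  have h4 : (Ideal.span {(ℓ : ℤ)}).ramificationIdx' (primeBelow φ A) = m := by
    refine Ideal.ramificationIdx'_spec ((hmap m).mpr hm.le) ?_
    rw [hmap, hm, WithZero.exp_le_exp]
    push_cast
    omega
  rw [h1, hm, ← h3, h4]

end NF

variable {p : ℕ} {A : ValuationSubring Qbar}

theorem smul_inertia_def (g : ↥(A.inertiaSubgroupIn ℚ)) (x : Qbar) : g • x = (g : GQ) x := rfl

theorem finite_orbit_of_subgroup (H : Subgroup GQ) (x : Qbar) : (MulAction.orbit ↥H x).Finite := by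
  have hx : IsIntegral ℚ x := (Algebra.IsAlgebraic.isAlgebraic x).isIntegral
  refine ((minpoly ℚ x).rootSet_finite Qbar).subset ?_
  rintro _ ⟨g, rfl⟩
  refine Polynomial.mem_rootSet.mpr ⟨minpoly.ne_zero hx, ?_⟩
  show Polynomial.aeval ((g : GQ) x) (minpoly ℚ x) = 0
  rw [Polynomial.aeval_algHom_apply, minpoly.aeval, map_zero]

/-- **the instance** -/
theorem isSH_inertia (hp : p.Prime) (hA : A.LiesOverPrime p) :
    IsSH ↥(A.inertiaSubgroupIn ℚ) A.valuation (p : Qbar) where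
  inv g x := valuation_apply_of_mem_decomposition (mem_decomposition_of_mem_inertia g.2) x
  orb x := finite_orbit_of_subgroup _ x
  fix g := map_natCast (g : GQ) p
  ne_zero := by exact_mod_cast hp.ne_zero
  lt_one := A.mem_nonunits_iff.mp hA
  val x hx hx0 := S36.exists_zpow_of_inertia_fixed hp hA hx0 (fun σ hσ => hx ⟨σ, hσ⟩)
  res x hx := by
    obtain ⟨b, hb, -, hb2⟩ := S36.exists_inertia_fixed_residue hp hA hx
    exact ⟨b, fun g => hb g.1 g.2, hb2⟩
  unif T := by
    classical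
    have hfin : FiniteDimensional ℚ (IntermediateField.adjoin ℚ (T : Set Qbar)) :=
      IntermediateField.finiteDimensional_adjoin
        (fun x _ => (Algebra.IsAlgebraic.isAlgebraic x).isIntegral)
    obtain ⟨M, _, _, _, ψ, hψ⟩ := exists_galois_model (IntermediateField.adjoin ℚ (T : Set Qbar))
    set w := placeBelow ψ hp A hA with hwdef
    have hw : w.asIdeal = primeBelow ψ A := rfl
    let ρ : ↥(A.inertiaSubgroupIn ℚ) →* (M ≃ₐ[ℚ] M) := (res ψ).comp (A.inertiaSubgroupIn ℚ).subtype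
    obtain ⟨ϖ, hϖ⟩ := w.valuation_exists_uniformizer M
    have hrange : ρ.range = (primeBelow ψ A).inertia (M ≃ₐ[ℚ] M) := by
      rw [← map_res_inertia hp hA]
      ext τ
      constructor
      · rintro ⟨g, rfl⟩
        exact ⟨g.1, g.2, rfl⟩
      · rintro ⟨σ, hσ, rfl⟩
        exact ⟨⟨σ, hσ⟩, rfl⟩
    have hidx : ρ.ker.index = (primeBelow ψ A).ramificationIdx ℤ := by
      rw [Subgroup.index_ker, hrange, card_inertia_eq_ramificationIdx]
    refine ⟨ρ.ker, ψ ϖ, fun s hs t ht => ?_, ?_, fun s hs => ?_, ?_⟩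
    · obtain ⟨y, rfl⟩ := hψ t (IntermediateField.subset_adjoin _ _ ht)
      exact (res_eq_one_iff ψ).mp hs y
    · rw [Subgroup.index_ker]
      exact Nat.card_pos.ne'
    · exact (res_eq_one_iff ψ).mp hs ϖ
    · rw [hidx, ← map_pow, ← map_pow, ← map_natCast ψ, valuation_eq_iff hw, map_pow, hϖ,
        valuation_natCast_eq_exp_neg_ramificationIdx hp hA hw, ← WithZero.exp_nsmul]
      simp

end Fermat.Agent.S56.Font
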