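import Fermat.Agent.S56.Font.LT.Basic

/-!
# S56 / Font / LT : (T2) `F = K₀[π]`, `O_F = O_{K₀}[π]`, valuations
-/

set_option autoImplicit false

namespace Fermat.Agent.S56.Font

open Polynomial MulAction

variable {Γ : Type*} [Group Γ] {C : Type*} [Field C] [MulSemiringAction Γ C]
  {Γ₀ : Type*} [LinearOrderedCommGroupWithZero Γ₀] {v : Valuation C Γ₀} {ϖ : C}

section Sec

variable (Γ) in
open scoped Classical in
/-- a section of `g ↦ g • π`. -/
noncomputable def sec (π z : C) : Γ := if hz : ∃ g : Γ, g • π = z then hz.choose else 1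

lemma sec_smul (h : IsSH Γ v ϖ) {π z : C} (hz : z ∈ orbF h π) : sec Γ π z • π = z := by
  have hz' := (mem_orbF h).mp hz
  rw [sec, dif_pos hz']
  exact hz'.choose_spec

lemma sec_smul_smul (h : IsSH Γ v ϖ) {π x : C} (hx : FixBy (stabilizer Γ π) x) (g : Γ) :
    sec Γ π (g • π) • x = g • x := by
  have h1 := sec_smul h (smul_mem_orbF h g (self_mem_orbF h π))
  have h2 : g⁻¹ * sec Γ π (g • π) ∈ stabilizer Γ π := by
    rw [mem_stabilizer_iff, mul_smul, h1, inv_smul_smul]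
  have h3 := hx _ h2
  rw [mul_smul, inv_smul_eq_iff] at h3
  exact h3

open scoped Classical in
/-- the polynomial `L` of degree `< n` over `K₀` with `L(π) = x`. -/
noncomputable def rep (h : IsSH Γ v ϖ) (π x : C) : C[X] :=
  Lagrange.interpolate (orbF h π) id (fun z => sec Γ π z • x)

lemma degree_rep_lt (h : IsSH Γ v ϖ) (π x : C) :
    (rep h π x).degree < ((stabilizer Γ π).index : ℕ) := by
  classical
  rw [← card_orbF h]
  exact Lagrange.degree_interpolate_lt _ (Set.injOn_id _)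

lemma eval_rep_smul (h : IsSH Γ v ϖ) {π x : C} (hx : FixBy (stabilizer Γ π) x) (g : Γ) :
    (rep h π x).eval (g • π) = g • x := by
  classical
  have := Lagrange.eval_interpolate_at_node (v := id) (fun z => sec Γ π z • x)
    (Set.injOn_id _) (smul_mem_orbF h g (self_mem_orbF h π))
  rw [id] at this
  rw [rep, this, sec_smul_smul h hx]

lemma eval_rep (h : IsSH Γ v ϖ) {π x : C} (hx : FixBy (stabilizer Γ π) x) :
    (rep h π x).eval π = x := by
  have := eval_rep_smul h hx 1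
  rwa [one_smul, one_smul] at this

/-- a polynomial of degree `< n` is determined by its values on the conjugates of `π`. -/
lemma eq_rep_of_eval (h : IsSH Γ v ϖ) {π x : C} (hx : FixBy (stabilizer Γ π) x) {L : C[X]}
    (hdeg : L.degree < ((stabilizer Γ π).index : ℕ)) (hL : ∀ g : Γ, L.eval (g • π) = g • x) :
    L = rep h π x := by
  classical
  rw [← card_orbF h] at hdeg
  refine Lagrange.eq_interpolate_of_eval_eq _ (Set.injOn_id _) hdeg (fun z hz => ?_)
  obtain ⟨g, rfl⟩ := (mem_orbF h).mp hz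
  rw [id, hL, sec_smul_smul h hx]

lemma eq_rep (h : IsSH Γ v ϖ) {π x : C} (hx : FixBy (stabilizer Γ π) x) {L : C[X]}
    (hdeg : L.degree < ((stabilizer Γ π).index : ℕ)) (hfix : FixPoly Γ L) (hL : L.eval π = x) :
    L = rep h π x :=
  eq_rep_of_eval h hx hdeg (fun g => by rw [← hfix.smul_eval, hL])

lemma fixPoly_rep (h : IsSH Γ v ϖ) {π x : C} (hx : FixBy (stabilizer Γ π) x) :
    FixPoly Γ (rep h π x) := by
  rw [fixPoly_iff]
  intro g
  refine eq_rep_of_eval h hx ?_ (fun g' => ?_)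
  · refine lt_of_le_of_lt ?_ (degree_rep_lt h π x)
    rw [smul_eq_map]
    exact degree_map_le
  · rw [smul_eval, ← mul_smul, eval_rep_smul h hx, ← mul_smul, mul_inv_cancel_left]

/-- **(T2)**, existence. -/
theorem exists_rep (h : IsSH Γ v ϖ) {π x : C} (hx : FixBy (stabilizer Γ π) x) :
    ∃ L : C[X], L.degree < ((stabilizer Γ π).index : ℕ) ∧ FixPoly Γ L ∧ L.eval π = x :=
  ⟨rep h π x, degree_rep_lt h π x, fixPoly_rep h hx, eval_rep h hx⟩

lemma rep_add (h : IsSH Γ v ϖ) (π x y : C) : rep h π (x + y) = rep h π x + rep h π y := by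
  classical
  rw [rep, rep, rep, ← map_add]
  congr 1
  funext z
  simp [smul_add]

lemma rep_mul_fix (h : IsSH Γ v ϖ) (π : C) {a : C} (ha : Fix0 Γ a) (x : C) :
    rep h π (a * x) = Polynomial.C a * rep h π x := by
  classical
  rw [rep, rep, ← smul_eq_C_mul, ← map_smul]
  congr 1
  funext z
  simp [smul_mul', ha _]

lemma rep_fix (h : IsSH Γ v ϖ) (π : C) {a : C} (ha : Fix0 Γ a) : rep h π a = Polynomial.C a := by
  refine (eq_rep h (ha.fixBy _) ?_ ?_ eval_C).symm
  · refine lt_of_le_of_lt degree_C_le ?_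
    exact_mod_cast Nat.pos_of_ne_zero (index_stabilizer_ne_zero h π)
  · intro i
    rw [coeff_C]
    split_ifs
    · exact ha
    · exact Fix0.zero

end Sec

section Val

/-- among the terms `c_i y^i`, `i < n`, exactly one has maximal valuation. -/
lemma exists_max_term (h : IsSH Γ v ϖ) {y : C} {n : ℕ} (hy : v y ^ n = v ϖ) {L : C[X]}
    (hL : FixPoly Γ L) (hdeg : L.degree < (n : ℕ)) (hL0 : L ≠ 0) :
    ∃ j < n, L.coeff j ≠ 0 ∧ ∀ i < n, i ≠ j → v (L.coeff i * y ^ i) < v (L.coeff j * y ^ j) := by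
  have hn := ne_zero_of_pow h hy
  have hy0 := ne_zero_of_pow' h hy
  obtain ⟨j, hj, hmax⟩ := Finset.exists_max_image (Finset.range n)
    (fun i => v (L.coeff i * y ^ i)) ⟨0, Finset.mem_range.mpr (Nat.pos_of_ne_zero hn)⟩
  rw [Finset.mem_range] at hj
  have hj0 : L.coeff j ≠ 0 := by
    intro h0
    apply hL0
    ext i
    rw [coeff_zero]
    by_cases hi : i < n
    · have := hmax i (Finset.mem_range.mpr hi)
      simp only [h0, zero_mul, map_zero, le_zero_iff, map_eq_zero, mul_eq_zero] at this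
      exact this.resolve_right (pow_ne_zero _ hy0)
    · exact coeff_eq_zero_of_degree_lt (lt_of_lt_of_le hdeg (by exact_mod_cast not_lt.mp hi))
  refine ⟨j, hj, hj0, fun i hi hij => lt_of_le_of_ne (hmax i (Finset.mem_range.mpr hi)) ?_⟩
  intro heq
  have hi0 : L.coeff i ≠ 0 := by
    intro h0
    rw [h0, zero_mul, map_zero] at heq
    exact (v.ne_zero_iff.mpr (mul_ne_zero hj0 (pow_ne_zero _ hy0))) heq.symm
  obtain ⟨a, ha⟩ := exists_val_eq_zpow_mul h hy (hL i) hi0
  obtain ⟨b, hb⟩ := exists_val_eq_zpow_mul h hy (hL j) hj0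
  have hvy : v y ≠ 0 := (val_pos_of_pow h hy).ne'
  rw [map_mul, map_mul, map_pow, map_pow, ha, hb, ← zpow_natCast, ← zpow_natCast,
    ← zpow_add₀ hvy, ← zpow_add₀ hvy] at heq
  have h1 := zpow_val_injective h hy heq
  have h2 : (n : ℤ) ∣ ((j : ℤ) - i) := ⟨a - b, by linarith⟩
  have h3 : ((j : ℤ) - i) = 0 := Int.eq_zero_of_abs_lt_dvd h2 (by rw [abs_lt]; constructor <;> omega)
  omega

lemma eval_eq_sum_range_of_degree_lt {L : C[X]} {n : ℕ} (hdeg : L.degree < (n : ℕ)) (y : C) :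
    L.eval y = ∑ i ∈ Finset.range n, L.coeff i * y ^ i := by
  by_cases hL0 : L = 0
  · simp [hL0]
  exact eval_eq_sum_range' ((natDegree_lt_iff_degree_lt hL0).mpr hdeg) y

lemma val_eval_eq_of_max {y : C} {n : ℕ} {L : C[X]} (hdeg : L.degree < (n : ℕ)) {j : ℕ}
    (hj : j < n) (hmax : ∀ i < n, i ≠ j → v (L.coeff i * y ^ i) < v (L.coeff j * y ^ j)) :
    v (L.eval y) = v (L.coeff j * y ^ j) := by
  classical
  rw [eval_eq_sum_range_of_degree_lt hdeg]
  refine Valuation.map_sum_eq_of_lt v (Finset.mem_range.mpr hj) (fun i hi => ?_)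
  rw [Finset.mem_sdiff, Finset.mem_range, Finset.mem_singleton] at hi
  exact hmax i hi.1 hi.2

/-- **(T2)**, valuations: `v (∑ c_i y^i) = max_i v (c_i y^i)`. -/
theorem val_term_le_val_eval (h : IsSH Γ v ϖ) {y : C} {n : ℕ} (hy : v y ^ n = v ϖ) {L : C[X]}
    (hL : FixPoly Γ L) (hdeg : L.degree < (n : ℕ)) (i : ℕ) :
    v (L.coeff i * y ^ i) ≤ v (L.eval y) := by
  by_cases hL0 : L = 0
  · simp [hL0]
  obtain ⟨j, hj, -, hmax⟩ := exists_max_term h hy hL hdeg hL0
  rw [val_eval_eq_of_max hdeg hj hmax]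
  by_cases hi : i < n
  · by_cases hij : i = j
    · rw [hij]
    · exact (hmax i hi hij).le
  · rw [coeff_eq_zero_of_degree_lt (lt_of_lt_of_le hdeg (by exact_mod_cast not_lt.mp hi)),
      zero_mul, map_zero]
    exact zero_le

theorem exists_val_eval_eq_zpow (h : IsSH Γ v ϖ) {y : C} {n : ℕ} (hy : v y ^ n = v ϖ) {L : C[X]}
    (hL : FixPoly Γ L) (hdeg : L.degree < (n : ℕ)) (hL0 : L ≠ 0) :
    ∃ m : ℤ, v (L.eval y) = v y ^ m := by
  obtain ⟨j, hj, hj0, hmax⟩ := exists_max_term h hy hL hdeg hL0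
  obtain ⟨b, hb⟩ := exists_val_eq_zpow_mul h hy (hL j) hj0
  refine ⟨(n : ℤ) * b + j, ?_⟩
  rw [val_eval_eq_of_max hdeg hj hmax, map_mul, map_pow, hb,
    zpow_add₀ (val_pos_of_pow h hy).ne', zpow_natCast]

theorem val_eval_congr (h : IsSH Γ v ϖ) {y y' : C} {n : ℕ} (hy : v y ^ n = v ϖ)
    (hy' : v y' ^ n = v ϖ) {L : C[X]} (hL : FixPoly Γ L) (hdeg : L.degree < (n : ℕ)) :
    v (L.eval y) = v (L.eval y') := by
  by_cases hL0 : L = 0
  · simp [hL0]
  have hyy := val_eq_of_pow h hy hy'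
  obtain ⟨j, hj, -, hmax⟩ := exists_max_term h hy hL hdeg hL0
  rw [val_eval_eq_of_max hdeg hj hmax, val_eval_eq_of_max (y := y') hdeg hj (fun i hi hij => by
    have := hmax i hi hij
    rw [map_mul, map_mul, map_pow, map_pow, hyy] at this
    rwa [map_mul, map_mul, map_pow, map_pow]), map_mul, map_mul, map_pow, map_pow,
    hyy]

/-- an element of `K₀` of valuation `< v y ^ (-n)`... : integrality of the coefficients. -/
theorem val_coeff_le_one (h : IsSH Γ v ϖ) {y : C} {n : ℕ} (hy : v y ^ n = v ϖ) {L : C[X]}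
    (hL : FixPoly Γ L) (hdeg : L.degree < (n : ℕ)) (hle : v (L.eval y) ≤ 1) (i : ℕ) :
    v (L.coeff i) ≤ 1 := by
  by_cases hi : i < n
  · by_cases hi0 : L.coeff i = 0
    · rw [hi0, map_zero]; exact zero_le
    obtain ⟨a, ha⟩ := exists_val_eq_zpow_mul h hy (hL i) hi0
    have h1 := (val_term_le_val_eval h hy hL hdeg i).trans hle
    have hvy : v y ≠ 0 := (val_pos_of_pow h hy).ne'
    rw [map_mul, map_pow, ha, ← zpow_natCast, ← zpow_add₀ hvy, ← zpow_zero (v y)] at h1
    have h2 := (zpow_right_strictAnti₀ (val_pos_of_pow h hy) (val_lt_one_of_pow h hy)).le_iff_ge.mp h1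
    have h3 : 0 ≤ a := by
      by_contra hneg
      have : a ≤ -1 := by omega
      have : (n : ℤ) * a ≤ (n : ℤ) * (-1) := mul_le_mul_of_nonneg_left this (by positivity)
      omega
    rw [ha, ← zpow_zero (v y)]
    exact (zpow_right_strictAnti₀ (val_pos_of_pow h hy) (val_lt_one_of_pow h hy)).le_iff_ge.mpr
      (by positivity)
  · rw [coeff_eq_zero_of_degree_lt (lt_of_lt_of_le hdeg (by exact_mod_cast not_lt.mp hi)), map_zero]
    exact zero_le

/-- an element of `K₀` of valuation `< 1` has valuation `≤ v ϖ`. -/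
lemma val_le_of_lt_one (h : IsSH Γ v ϖ) {c : C} (hc : Fix0 Γ c) (hlt : v c < 1) : v c ≤ v ϖ := by
  by_cases hc0 : c = 0
  · rw [hc0, map_zero]; exact zero_le
  obtain ⟨k, hk⟩ := h.val c hc hc0
  rw [hk, ← zpow_zero (v ϖ)] at hlt
  have h1 := (zpow_right_strictAnti₀ h.val_pos h.lt_one).lt_iff_gt.mp hlt
  rw [hk]
  conv_rhs => rw [← zpow_one (v ϖ)]
  exact (zpow_right_strictAnti₀ h.val_pos h.lt_one).le_iff_ge.mpr (by omega)

variable {π : C} {n : ℕ}

/-- the value group of `K₀(π)` is generated by `v π`. -/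
theorem IsTot.exists_val_eq_zpow (h : IsSH Γ v ϖ) (hπ : IsTot Γ v ϖ π n) {x : C}
    (hx : FixBy (stabilizer Γ π) x) (hx0 : x ≠ 0) : ∃ m : ℤ, v x = v π ^ m := by
  have hdeg := degree_rep_lt h π x
  rw [hπ.index] at hdeg
  have := exists_val_eval_eq_zpow h hπ.pow (fixPoly_rep h hx) hdeg (by
    intro h0
    have := eval_rep h hx
    rw [h0, eval_zero] at this
    exact hx0 this.symm)
  rwa [eval_rep h hx] at this

/-- `O_F = O_{K₀}[π]`. -/
theorem IsTot.val_coeff_rep_le_one (h : IsSH Γ v ϖ) (hπ : IsTot Γ v ϖ π n) {x : C}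
    (hx : FixBy (stabilizer Γ π) x) (hx1 : v x ≤ 1) (i : ℕ) : v ((rep h π x).coeff i) ≤ 1 := by
  have hdeg := degree_rep_lt h π x
  rw [hπ.index] at hdeg
  exact val_coeff_le_one h hπ.pow (fixPoly_rep h hx) hdeg (by rwa [eval_rep h hx]) i

end Val

end Fermat.Agent.S56.Font
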