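import Fermat.Agent.S56.Font.LT.Eis

/-!
# S56 / Font / LT : open subgroups.  Uniformisers of all finite extensions; base change `K₀ → C^N`.
-/

set_option autoImplicit false

namespace Fermat.Agent.S56.Font

open Polynomial MulAction

variable {Γ : Type*} [Group Γ] {C : Type*} [Field C] [MulSemiringAction Γ C]
  {Γ₀ : Type*} [LinearOrderedCommGroupWithZero Γ₀] {v : Valuation C Γ₀} {ϖ : C}

lemma isOpenIn_stabilizer (y : C) : IsOpenIn C (stabilizer Γ y) := by
  classical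
  exact ⟨{y}, fun g hg => hg y (Finset.mem_singleton_self y)⟩

lemma IsOpenIn.mono {N N' : Subgroup Γ} (h : IsOpenIn C N) (hle : N ≤ N') : IsOpenIn C N' := by
  obtain ⟨T, hT⟩ := h
  exact ⟨T, fun g hg => hle (hT g hg)⟩

lemma IsOpenIn.inf {N N' : Subgroup Γ} (h : IsOpenIn C N) (h' : IsOpenIn C N') :
    IsOpenIn C (N ⊓ N') := by
  classical
  obtain ⟨T, hT⟩ := h
  obtain ⟨T', hT'⟩ := h'
  exact ⟨T ∪ T', fun g hg => ⟨hT g (fun t ht => hg t (Finset.mem_union_left _ ht)),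
    hT' g (fun t ht => hg t (Finset.mem_union_right _ ht))⟩⟩

/-- the product of the conjugates of `y` under a subgroup `N`. -/
lemma exists_norm_sub (h : IsSH Γ v ϖ) (N : Subgroup Γ) (y : C) :
    ∃ z : C, FixBy N z ∧ v z = v y ^ ((stabilizer Γ y).relIndex N) := by
  classical
  have hfin : (orbit ↥N y).Finite := (h.orb y).subset (by
    rintro _ ⟨g, rfl⟩
    exact ⟨g.1, rfl⟩)
  refine ⟨∏ z ∈ hfin.toFinset, z, fun s hs => ?_, ?_⟩
  · rw [Finset.smul_prod']
    refine Finset.prod_bij (fun z _ => s • z) (fun z hz => ?_)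
      (fun a _ b _ hab => smul_left_cancel s hab) (fun b hb => ?_) (fun _ _ => rfl)
    · rw [Set.Finite.mem_toFinset] at hz ⊢
      obtain ⟨g, rfl⟩ := hz
      exact ⟨⟨s, hs⟩ * g, mul_smul _ _ _⟩
    · rw [Set.Finite.mem_toFinset] at hb
      obtain ⟨g, rfl⟩ := hb
      refine ⟨s⁻¹ • (g • y), ?_, smul_inv_smul s _⟩
      rw [Set.Finite.mem_toFinset]
      exact ⟨⟨s, hs⟩⁻¹ * g, mul_smul _ _ _⟩
  · have hval : ∀ z ∈ hfin.toFinset, v z = v y := by
      intro z hz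
      rw [Set.Finite.mem_toFinset] at hz
      obtain ⟨g, rfl⟩ := hz
      exact h.inv g.1 y
    rw [map_prod, Finset.prod_congr rfl hval, Finset.prod_const]
    congr 1
    rw [← Set.ncard_eq_toFinset_card _ hfin, ← index_stabilizer, Subgroup.relIndex]
    congr 1

/-- **no defect**: every open subgroup `N` has a uniformiser `π` with `v π ^ [Γ : N] = v ϖ`. -/
theorem exists_isTot_of_isOpenIn (h : IsSH Γ v ϖ) {N : Subgroup Γ} (hN : IsOpenIn C N) :
    N.index ≠ 0 ∧ ∃ π : C, IsTot Γ v ϖ π N.index ∧ stabilizer Γ π = N := by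
  obtain ⟨T, hT⟩ := hN
  obtain ⟨N₁, π₁, h1, h2, h3, h4⟩ := h.unif T
  have hle : N₁ ≤ N := fun s hs => hT s (h1 s hs)
  have hidx := Subgroup.relIndex_mul_index hle
  have hN0 : N.index ≠ 0 := fun h0 => h2 (by rw [← hidx, h0, mul_zero])
  obtain ⟨-, hst⟩ := isTot_of_fixBy h h2 h3 h4
  obtain ⟨π, hπ1, hπ2⟩ := exists_norm_sub h N π₁
  rw [hst] at hπ2
  refine ⟨hN0, π, isTot_of_fixBy h hN0 hπ1 ?_⟩
  rw [hπ2, ← pow_mul, hidx, h4]

/-- **base change**: `(N, C, v, π)` is again a strictly henselian system. -/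
theorem IsSH.sub (h : IsSH Γ v ϖ) {π : C} {n : ℕ} (hπ : IsTot Γ v ϖ π n) :
    IsSH ↥(stabilizer Γ π) v π where
  inv g x := h.inv g.1 x
  orb x := (h.orb x).subset (by
    rintro _ ⟨g, rfl⟩
    exact ⟨g.1, rfl⟩)
  fix g := g.2
  ne_zero := ne_zero_of_pow' h hπ.pow
  lt_one := val_lt_one_of_pow h hπ.pow
  val x hx hx0 := hπ.exists_val_eq_zpow h (fun s hs => hx ⟨s, hs⟩) hx0
  res x hx := by
    obtain ⟨y, hy, hy2⟩ := h.res x hx
    exact ⟨y, fun g => hy g.1, hy2⟩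
  unif T := by
    classical
    obtain ⟨N₁, π₁, h1, h2, h3, h4⟩ := h.unif (insert π T)
    have hle : N₁ ≤ stabilizer Γ π := fun s hs => h1 s hs π (Finset.mem_insert_self _ _)
    have hidx := Subgroup.relIndex_mul_index hle
    refine ⟨N₁.subgroupOf (stabilizer Γ π), π₁, fun s hs t ht => ?_, ?_, fun s hs => ?_, ?_⟩
    · exact h1 s.1 (Subgroup.mem_subgroupOf.mp hs) t (Finset.mem_insert_of_mem ht)
    · intro h0
      apply h2
      rw [← hidx, Subgroup.relIndex, h0, zero_mul]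
    · exact h3 s.1 (Subgroup.mem_subgroupOf.mp hs)
    · have h5 : (v π₁ ^ (N₁.subgroupOf (stabilizer Γ π)).index) ^ n = v π ^ n := by
        rw [← pow_mul, hπ.pow, ← h4, ← hidx, hπ.index]
        rfl
      exact (pow_left_inj₀ zero_le zero_le (hπ.ne_zero_n h)).mp h5

end Fermat.Agent.S56.Font
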