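import Fermat.Agent.S56.Font.LT.Defs

/-!
# S56 / Font / LT : strictly henselian systems, basic toolkit

(T1) stabiliser of a uniformiser, (T2) `O_F = O_{K₀}[π]`, valuations, (T3) the minimal polynomial of a
uniformiser is Eisenstein, (T4) roots of Eisenstein polynomials, (T6) Krasner.
-/

set_option autoImplicit false

namespace Fermat.Agent.S56.Font

open Polynomial MulAction

variable {Γ : Type*} [Group Γ] {C : Type*} [Field C] [MulSemiringAction Γ C]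
  {Γ₀ : Type*} [LinearOrderedCommGroupWithZero Γ₀]

section Fix

lemma Fix0.add {x y : C} (hx : Fix0 Γ x) (hy : Fix0 Γ y) : Fix0 Γ (x + y) := fun g => by
  rw [smul_add, hx g, hy g]
lemma Fix0.mul {x y : C} (hx : Fix0 Γ x) (hy : Fix0 Γ y) : Fix0 Γ (x * y) := fun g => by
  rw [smul_mul', hx g, hy g]
lemma Fix0.neg {x : C} (hx : Fix0 Γ x) : Fix0 Γ (-x) := fun g => by rw [smul_neg, hx g]
lemma Fix0.sub {x y : C} (hx : Fix0 Γ x) (hy : Fix0 Γ y) : Fix0 Γ (x - y) := fun g => by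
  rw [smul_sub, hx g, hy g]
lemma Fix0.pow {x : C} (hx : Fix0 Γ x) (n : ℕ) : Fix0 Γ (x ^ n) := fun g => by
  rw [smul_pow', hx g]
lemma Fix0.one : Fix0 Γ (1 : C) := fun g => smul_one g
lemma Fix0.zero : Fix0 Γ (0 : C) := fun g => smul_zero g
lemma Fix0.inv {x : C} (hx : Fix0 Γ x) : Fix0 Γ x⁻¹ := fun g => by
  rw [smul_inv'', hx g]
lemma Fix0.natCast (n : ℕ) : Fix0 Γ (n : C) := fun g =>
  map_natCast (MulSemiringAction.toRingHom Γ C g) n
lemma Fix0.fixBy {x : C} (hx : Fix0 Γ x) (N : Subgroup Γ) : FixBy N x := fun s _ => hx s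

lemma FixBy.add {N : Subgroup Γ} {x y : C} (hx : FixBy N x) (hy : FixBy N y) : FixBy N (x + y) :=
  fun g hg => by rw [smul_add, hx g hg, hy g hg]
lemma FixBy.mul {N : Subgroup Γ} {x y : C} (hx : FixBy N x) (hy : FixBy N y) : FixBy N (x * y) :=
  fun g hg => by rw [smul_mul', hx g hg, hy g hg]
lemma FixBy.neg {N : Subgroup Γ} {x : C} (hx : FixBy N x) : FixBy N (-x) :=
  fun g hg => by rw [smul_neg, hx g hg]
lemma FixBy.sub {N : Subgroup Γ} {x y : C} (hx : FixBy N x) (hy : FixBy N y) : FixBy N (x - y) :=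
  fun g hg => by rw [smul_sub, hx g hg, hy g hg]
lemma FixBy.pow {N : Subgroup Γ} {x : C} (hx : FixBy N x) (n : ℕ) : FixBy N (x ^ n) :=
  fun g hg => by rw [smul_pow', hx g hg]
lemma FixBy.inv {N : Subgroup Γ} {x : C} (hx : FixBy N x) : FixBy N x⁻¹ :=
  fun g hg => by rw [smul_inv'', hx g hg]
lemma FixBy.mono {N N' : Subgroup Γ} (h : N' ≤ N) {x : C} (hx : FixBy N x) : FixBy N' x :=
  fun g hg => hx g (h hg)
lemma fixBy_stabilizer (x : C) : FixBy (stabilizer Γ x) x := fun _ hs => hs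
lemma fixBy_iff_le_stabilizer {N : Subgroup Γ} {x : C} : FixBy N x ↔ N ≤ stabilizer Γ x := Iff.rfl

lemma fixPoly_iff {L : C[X]} : FixPoly Γ L ↔ ∀ g : Γ, g • L = L := by
  constructor
  · intro h g
    ext i
    rw [coeff_smul, h i g]
  · intro h i g
    rw [← coeff_smul, h g]

lemma FixPoly.smul_eval {L : C[X]} (hL : FixPoly Γ L) (g : Γ) (x : C) :
    g • L.eval x = L.eval (g • x) := by
  rw [← smul_eval_smul, fixPoly_iff.mp hL g]

lemma FixPoly.add {L M : C[X]} (hL : FixPoly Γ L) (hM : FixPoly Γ M) : FixPoly Γ (L + M) :=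
  fun i => by rw [coeff_add]; exact (hL i).add (hM i)
lemma FixPoly.sub {L M : C[X]} (hL : FixPoly Γ L) (hM : FixPoly Γ M) : FixPoly Γ (L - M) :=
  fun i => by rw [coeff_sub]; exact (hL i).sub (hM i)
lemma FixPoly.mul {L M : C[X]} (hL : FixPoly Γ L) (hM : FixPoly Γ M) : FixPoly Γ (L * M) := by
  rw [fixPoly_iff] at *
  intro g
  rw [smul_mul', hL g, hM g]
lemma FixPoly.C_mul {a : C} (ha : Fix0 Γ a) {L : C[X]} (hL : FixPoly Γ L) :
    FixPoly Γ (Polynomial.C a * L) := fun i => by rw [coeff_C_mul]; exact ha.mul (hL i)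
lemma FixPoly.zero : FixPoly Γ (0 : C[X]) := fun i => by rw [coeff_zero]; exact Fix0.zero
lemma FixPoly.one : FixPoly Γ (1 : C[X]) := by
  rw [fixPoly_iff]; intro g; exact smul_one g
lemma FixPoly.X : FixPoly Γ (Polynomial.X : C[X]) := by
  rw [fixPoly_iff]; intro g; exact smul_X g

lemma FixPoly.eval_fixBy {L : C[X]} (hL : FixPoly Γ L) {N : Subgroup Γ} {x : C} (hx : FixBy N x) :
    FixBy N (L.eval x) := fun s hs => by rw [hL.smul_eval, hx s hs]

end Fix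

section Orbit

variable {v : Valuation C Γ₀} {ϖ : C}

/-- the orbit of `y`, as a finset. -/
noncomputable def orbF (h : IsSH Γ v ϖ) (y : C) : Finset C := (h.orb y).toFinset

lemma mem_orbF (h : IsSH Γ v ϖ) {y z : C} : z ∈ orbF h y ↔ ∃ g : Γ, g • y = z := by
  rw [orbF, Set.Finite.mem_toFinset]; rfl

lemma self_mem_orbF (h : IsSH Γ v ϖ) (y : C) : y ∈ orbF h y := (mem_orbF h).mpr ⟨1, one_smul _ _⟩

lemma smul_mem_orbF (h : IsSH Γ v ϖ) (g : Γ) {y z : C} (hz : z ∈ orbF h y) : g • z ∈ orbF h y := by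
  obtain ⟨g', rfl⟩ := (mem_orbF h).mp hz
  exact (mem_orbF h).mpr ⟨g * g', mul_smul _ _ _⟩

lemma card_orbF (h : IsSH Γ v ϖ) (y : C) : (orbF h y).card = (stabilizer Γ y).index := by
  rw [index_stabilizer, orbF, Set.ncard_eq_toFinset_card _ (h.orb y)]

lemma index_stabilizer_ne_zero (h : IsSH Γ v ϖ) (y : C) : (stabilizer Γ y).index ≠ 0 := by
  rw [← card_orbF h]
  exact Finset.card_ne_zero_of_mem (self_mem_orbF h y)

/-- reindexing a product over an orbit. -/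
lemma prod_orbF_smul {M : Type*} [CommMonoid M] (h : IsSH Γ v ϖ) (g : Γ) (y : C) (f : C → M) :
    ∏ z ∈ orbF h y, f (g • z) = ∏ z ∈ orbF h y, f z := by
  refine Finset.prod_bij (fun z _ => g • z) (fun z hz => smul_mem_orbF h g hz)
    (fun a _ b _ hab => smul_left_cancel g hab) (fun b hb => ?_) (fun _ _ => rfl)
  exact ⟨g⁻¹ • b, smul_mem_orbF h _ hb, smul_inv_smul g b⟩

/-- the minimal polynomial of `y` over `K₀`. -/
noncomputable def mp (h : IsSH Γ v ϖ) (y : C) : C[X] := ∏ z ∈ orbF h y, (X - Polynomial.C z)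

lemma mp_monic (h : IsSH Γ v ϖ) (y : C) : (mp h y).Monic :=
  monic_prod_of_monic _ _ fun _ _ => monic_X_sub_C _

lemma natDegree_mp (h : IsSH Γ v ϖ) (y : C) : (mp h y).natDegree = (stabilizer Γ y).index := by
  rw [mp, natDegree_prod_of_monic _ _ (fun _ _ => monic_X_sub_C _), ← card_orbF h]
  simp

lemma fixPoly_mp (h : IsSH Γ v ϖ) (y : C) : FixPoly Γ (mp h y) := by
  rw [fixPoly_iff]
  intro g
  rw [mp, Finset.smul_prod']
  simp only [smul_sub, smul_X, smul_C]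
  exact prod_orbF_smul h g y (fun z => X - Polynomial.C z)

lemma eval_mp (h : IsSH Γ v ϖ) (y x : C) : (mp h y).eval x = ∏ z ∈ orbF h y, (x - z) := by
  rw [mp, eval_prod]; simp

lemma eval_mp_self (h : IsSH Γ v ϖ) (y : C) : (mp h y).eval y = 0 := by
  rw [eval_mp]
  exact Finset.prod_eq_zero (self_mem_orbF h y) (sub_self y)

lemma fix0_prod_orbF (h : IsSH Γ v ϖ) (y : C) : Fix0 Γ (∏ z ∈ orbF h y, z) := fun g => by
  rw [Finset.smul_prod']
  exact prod_orbF_smul h g y (fun z => z)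

lemma val_of_mem_orbF (h : IsSH Γ v ϖ) {y z : C} (hz : z ∈ orbF h y) : v z = v y := by
  obtain ⟨g, rfl⟩ := (mem_orbF h).mp hz
  exact h.inv g y

lemma val_prod_orbF (h : IsSH Γ v ϖ) (y : C) :
    v (∏ z ∈ orbF h y, z) = v y ^ (stabilizer Γ y).index := by
  rw [map_prod, Finset.prod_congr rfl (fun z hz => val_of_mem_orbF h hz), Finset.prod_const,
    card_orbF]

end Orbit

section Tot

variable {v : Valuation C Γ₀} {ϖ : C}

lemma IsSH.val_pos (h : IsSH Γ v ϖ) : 0 < v ϖ := zero_lt_iff.mpr ((v.ne_zero_iff).mpr h.ne_zero)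

lemma ne_zero_of_pow (h : IsSH Γ v ϖ) {y : C} {n : ℕ} (hy : v y ^ n = v ϖ) : n ≠ 0 := by
  rintro rfl
  rw [pow_zero] at hy
  exact h.lt_one.ne hy.symm

lemma val_pos_of_pow (h : IsSH Γ v ϖ) {y : C} {n : ℕ} (hy : v y ^ n = v ϖ) : 0 < v y := by
  rw [zero_lt_iff]
  intro h0
  have hn := ne_zero_of_pow h hy
  rw [h0, zero_pow hn] at hy
  exact h.val_pos.ne hy

lemma val_lt_one_of_pow (h : IsSH Γ v ϖ) {y : C} {n : ℕ} (hy : v y ^ n = v ϖ) : v y < 1 := by
  by_contra hge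
  rw [not_lt] at hge
  have : 1 ≤ v y ^ n := one_le_pow₀ hge
  rw [hy] at this
  exact absurd h.lt_one (not_lt.mpr this)

lemma ne_zero_of_pow' (h : IsSH Γ v ϖ) {y : C} {n : ℕ} (hy : v y ^ n = v ϖ) : y ≠ 0 :=
  (v.ne_zero_iff).mp (val_pos_of_pow h hy).ne'

lemma zpow_val_injective (h : IsSH Γ v ϖ) {y : C} {n : ℕ} (hy : v y ^ n = v ϖ) :
    Function.Injective (fun m : ℤ => v y ^ m) :=
  (zpow_right_strictAnti₀ (val_pos_of_pow h hy) (val_lt_one_of_pow h hy)).injective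

lemma val_eq_of_pow (h : IsSH Γ v ϖ) {y y' : C} {n : ℕ} (hy : v y ^ n = v ϖ)
    (hy' : v y' ^ n = v ϖ) : v y = v y' :=
  (pow_left_inj₀ zero_le zero_le (ne_zero_of_pow h hy)).mp (hy.trans hy'.symm)

/-- the valuation of an element of `K₀` is `v y ^ (n k)`. -/
lemma exists_val_eq_zpow_mul (h : IsSH Γ v ϖ) {y : C} {n : ℕ} (hy : v y ^ n = v ϖ) {c : C}
    (hc : Fix0 Γ c) (hc0 : c ≠ 0) : ∃ k : ℤ, v c = v y ^ ((n : ℤ) * k) := by
  obtain ⟨k, hk⟩ := h.val c hc hc0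
  exact ⟨k, by rw [hk, ← hy, zpow_mul, zpow_natCast]⟩

lemma dvd_of_val_eq_zpow (h : IsSH Γ v ϖ) {y : C} {n : ℕ} (hy : v y ^ n = v ϖ) {c : C}
    (hc : Fix0 Γ c) (hc0 : c ≠ 0) {m : ℤ} (hm : v c = v y ^ m) : (n : ℤ) ∣ m := by
  obtain ⟨k, hk⟩ := exists_val_eq_zpow_mul h hy hc hc0
  have := zpow_val_injective h hy (hm.symm.trans hk)
  exact ⟨k, this⟩

/-- `e ∣ n`. -/
theorem dvd_index_stabilizer (h : IsSH Γ v ϖ) {y : C} {n : ℕ} (hy : v y ^ n = v ϖ) :
    n ∣ (stabilizer Γ y).index := by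
  have h0 : (∏ z ∈ orbF h y, z) ≠ 0 := by
    rw [← v.ne_zero_iff, val_prod_orbF]
    exact pow_ne_zero _ (val_pos_of_pow h hy).ne'
  have := dvd_of_val_eq_zpow h hy (fix0_prod_orbF h y) h0
    (m := ((stabilizer Γ y).index : ℤ)) (by rw [val_prod_orbF, zpow_natCast])
  exact_mod_cast this

lemma eq_of_le_of_index_eq {H K : Subgroup Γ} (hle : H ≤ K) (hH : H.index ≠ 0)
    (h : H.index = K.index) : H = K := by
  refine le_antisymm hle ?_
  rw [← Subgroup.relIndex_eq_one]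
  have h1 := Subgroup.relIndex_mul_index hle
  rw [h] at h1
  have hK : K.index ≠ 0 := h ▸ hH
  exact Nat.eq_of_mul_eq_mul_right (Nat.pos_of_ne_zero hK) (by rw [h1, one_mul])

/-- **(T1)** -/
theorem isTot_of_fixBy (h : IsSH Γ v ϖ) {N : Subgroup Γ} {π : C} (hN : N.index ≠ 0)
    (hfix : FixBy N π) (hπ : v π ^ N.index = v ϖ) :
    IsTot Γ v ϖ π N.index ∧ stabilizer Γ π = N := by
  have hle : N ≤ stabilizer Γ π := hfix
  have h1 : (stabilizer Γ π).index ∣ N.index := Subgroup.index_dvd_of_le hle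
  have h2 := dvd_index_stabilizer h hπ
  have h3 : (stabilizer Γ π).index = N.index := Nat.dvd_antisymm h1 h2
  exact ⟨⟨hπ, h3⟩, (eq_of_le_of_index_eq hle hN h3.symm).symm⟩

lemma IsTot.ne_zero_n (h : IsSH Γ v ϖ) {π : C} {n : ℕ} (hπ : IsTot Γ v ϖ π n) : n ≠ 0 :=
  ne_zero_of_pow h hπ.pow

lemma IsTot.card_orbF (h : IsSH Γ v ϖ) {π : C} {n : ℕ} (hπ : IsTot Γ v ϖ π n) :
    (orbF h π).card = n := by rw [Font.card_orbF, hπ.index]

/-- **(T6)** Krasner's lemma. -/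
theorem stabilizer_le_of_close (h : IsSH Γ v ϖ) {π y : C}
    (hy : ∀ s : Γ, s • π ≠ π → v (y - π) < v (s • π - π)) : stabilizer Γ y ≤ stabilizer Γ π := by
  intro g hg
  by_contra hne
  have hg' : g • y = y := hg
  have h1 := hy g hne
  have h2 : g • π - π = (y - π) - g • (y - π) := by rw [smul_sub, hg']; ring
  have h3 : v (g • π - π) ≤ v (y - π) := by
    rw [h2]
    exact (v.map_sub _ _).trans (max_le le_rfl (h.inv g _).le)
  exact absurd h1 (not_lt.mpr h3)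

end Tot

end Fermat.Agent.S56.Font
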