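import Mathlib

/-!
# S56 / Font / LT : "strictly henselian systems".  Definitions.

`(Γ, C, v, ϖ)`: the group `Γ` acts on the field `C` by isometries of the valuation `v`, with finite
orbits; the fixed field `K₀ = C^Γ` has value group `v(ϖ)^ℤ` and the same residue field as `C`; there is
no defect (`unif`).  Model: `Γ = I_A ≤ G_ℚ` (inertia group of a place `A` of `ℚ̄` above `p`), `C = ℚ̄`,
`v = A.valuation`, `ϖ = p`, `K₀` = maximal unramified extension of the henselisation of `ℚ` at `p`.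
No subfields, no field degrees: a finite extension of `K₀` is encoded by a subgroup of `Γ`
(`FixBy N x` : `x ∈ C^N`), usually the stabiliser of a generator.
-/

set_option autoImplicit false

namespace Fermat.Agent.S56.Font

open Polynomial

variable {Γ : Type*} [Group Γ] {C : Type*} [Field C] [MulSemiringAction Γ C]
  {Γ₀ : Type*} [LinearOrderedCommGroupWithZero Γ₀]

/-- `x ∈ C^N` -/
def FixBy (N : Subgroup Γ) (x : C) : Prop := ∀ s ∈ N, s • x = x

variable (Γ) in
/-- `x ∈ K₀ = C^Γ` -/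
def Fix0 (x : C) : Prop := ∀ g : Γ, g • x = x

variable (Γ) in
/-- the coefficients of `L` lie in `K₀`. -/
def FixPoly (L : C[X]) : Prop := ∀ i, Fix0 Γ (L.coeff i)

/-- `N` contains the pointwise stabiliser of a finite subset of `C`. -/
def IsOpenIn (C : Type*) [Field C] [MulSemiringAction Γ C] (N : Subgroup Γ) : Prop :=
  ∃ T : Finset C, ∀ g : Γ, (∀ t ∈ T, g • t = t) → g ∈ N

variable (Γ) in
/-- strictly henselian system -/
structure IsSH (v : Valuation C Γ₀) (ϖ : C) : Prop where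
  inv : ∀ (g : Γ) (x : C), v (g • x) = v x
  orb : ∀ x : C, (MulAction.orbit Γ x).Finite
  fix : Fix0 Γ ϖ
  ne_zero : ϖ ≠ 0
  lt_one : v ϖ < 1
  val : ∀ x : C, Fix0 Γ x → x ≠ 0 → ∃ n : ℤ, v x = v ϖ ^ n
  res : ∀ x : C, v x ≤ 1 → ∃ y : C, Fix0 Γ y ∧ v (x - y) < 1
  unif : ∀ T : Finset C, ∃ (N : Subgroup Γ) (π : C), (∀ s ∈ N, ∀ t ∈ T, s • t = t) ∧
    N.index ≠ 0 ∧ FixBy N π ∧ v π ^ N.index = v ϖ

variable (Γ) in
/-- `π` is a uniformiser of `K₀(π)`, which is (totally ramified) of degree `n` over `K₀`. -/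
structure IsTot (v : Valuation C Γ₀) (ϖ π : C) (n : ℕ) : Prop where
  pow : v π ^ n = v ϖ
  index : (MulAction.stabilizer Γ π).index = n

/-- Eisenstein polynomials over `O_{K₀}`. -/
structure IsEis (Γ : Type*) [Group Γ] [MulSemiringAction Γ C] (v : Valuation C Γ₀) (ϖ : C)
    (Q : C[X]) (n : ℕ) : Prop where
  monic : Q.Monic
  natDegree : Q.natDegree = n
  fix : FixPoly Γ Q
  le : ∀ i < n, v (Q.coeff i) ≤ v ϖ
  zero : v (Q.coeff 0) = v ϖ

end Fermat.Agent.S56.Font
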