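import Fermat.Agent.S56.Font.LT.Rep

/-!
# S56 / Font / LT : (T3) the minimal polynomial of a uniformiser is Eisenstein, (T4) roots of Eisenstein
polynomials, (T5)+(T7) the transfer map `η : O_{K₀(π)} → O_{K₀(β)}`, `π ↦ β`.
-/

set_option autoImplicit false

namespace Fermat.Agent.S56.Font

open Polynomial MulAction

variable {Γ : Type*} [Group Γ] {C : Type*} [Field C] [MulSemiringAction Γ C]
  {Γ₀ : Type*} [LinearOrderedCommGroupWithZero Γ₀] {v : Valuation C Γ₀} {ϖ : C}

section Eis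

variable {π : C} {n : ℕ}

lemma val_coeff_zero_mp (h : IsSH Γ v ϖ) (y : C) :
    v ((mp h y).coeff 0) = v y ^ (stabilizer Γ y).index := by
  rw [coeff_zero_eq_eval_zero, eval_mp, map_prod,
    Finset.prod_congr rfl (fun z hz => by rw [zero_sub, Valuation.map_neg, val_of_mem_orbF h hz]),
    Finset.prod_const, card_orbF]

/-- **(T3)** -/
theorem IsTot.isEis_mp (h : IsSH Γ v ϖ) (hπ : IsTot Γ v ϖ π n) : IsEis Γ v ϖ (mp h π) n := by
  have hn := hπ.ne_zero_n h
  have hnat : (mp h π).natDegree = n := by rw [natDegree_mp, hπ.index]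
  refine ⟨mp_monic h π, hnat, fixPoly_mp h π, fun i hi => ?_, by
    rw [val_coeff_zero_mp, hπ.index, hπ.pow]⟩
  -- `L = P - X ^ n` has degree `< n` and `L(π) = - π ^ n`
  set L : C[X] := mp h π - X ^ n with hLdef
  have hLfix : FixPoly Γ L := (fixPoly_mp h π).sub (by
    rw [fixPoly_iff]; intro g; rw [smul_pow', smul_X])
  have hLdeg : L.degree < (n : ℕ) := by
    have h1 : (mp h π).degree = (X ^ n : C[X]).degree := by
      rw [degree_X_pow, degree_eq_natDegree (mp_monic h π).ne_zero, hnat]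
    have h2 := degree_sub_lt_left h1 (mp_monic h π).ne_zero
      (by rw [(mp_monic h π).leadingCoeff, (monic_X_pow n).leadingCoeff])
    rwa [degree_eq_natDegree (mp_monic h π).ne_zero, hnat] at h2
  have hLev : L.eval π = - π ^ n := by
    rw [hLdef, eval_sub, eval_mp_self, eval_pow, eval_X, zero_sub]
  have hcoeff : L.coeff i = (mp h π).coeff i := by
    rw [hLdef, coeff_sub, coeff_X_pow, if_neg hi.ne, sub_zero]
  have h1 := val_term_le_val_eval h hπ.pow hLfix hLdeg i
  rw [hLev, Valuation.map_neg, map_pow, map_mul, map_pow, hcoeff] at h1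
  refine val_le_of_lt_one h (fixPoly_mp h π i) ?_
  have hvπ := val_pos_of_pow h hπ.pow
  have hlt := val_lt_one_of_pow h hπ.pow
  by_contra hge
  rw [not_lt] at hge
  have h2 : v π ^ i ≤ v π ^ n := le_trans (le_mul_of_one_le_left zero_le hge) h1
  have h3 : v π ^ n < v π ^ i := pow_lt_pow_right_of_lt_one₀ hvπ hlt hi
  exact absurd h2 (not_le.mpr h3)

lemma IsEis.ne_zero_n (h : IsSH Γ v ϖ) {Q : C[X]} (hQ : IsEis Γ v ϖ Q n) : n ≠ 0 := by
  rintro rfl
  have h1 : Q = 1 := eq_one_of_monic_natDegree_zero hQ.monic hQ.natDegree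
  have h2 := hQ.zero
  rw [h1, coeff_one_zero, map_one] at h2
  exact h.lt_one.ne h2.symm

/-- a monic polynomial is `X ^ n` plus its lower terms. -/
lemma eval_eq_pow_add_sum {Q : C[X]} (hQ : Q.Monic) (hn : Q.natDegree = n) (β : C) :
    Q.eval β = β ^ n + ∑ i ∈ Finset.range n, Q.coeff i * β ^ i := by
  rw [eval_eq_sum_range, hn, Finset.sum_range_succ, ← hn, hQ.coeff_natDegree, one_mul, add_comm]

/-- **(T4)** valuation of a root of an Eisenstein polynomial. -/
theorem IsEis.val_root_pow (h : IsSH Γ v ϖ) {Q : C[X]} (hQ : IsEis Γ v ϖ Q n) {β : C}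
    (hβ : Q.eval β = 0) : v β ^ n = v ϖ := by
  classical
  have hn := hQ.ne_zero_n h
  have hsum : β ^ n = - ∑ i ∈ Finset.range n, Q.coeff i * β ^ i := by
    have := eval_eq_pow_add_sum hQ.monic hQ.natDegree β
    rw [hβ] at this
    exact eq_neg_of_add_eq_zero_left this.symm
  have hlt : v β < 1 := by
    by_contra hge
    rw [not_lt] at hge
    have h0 : v β ^ n ≠ 0 := pow_ne_zero _ (lt_of_lt_of_le zero_lt_one hge).ne'
    have h1 : v (∑ i ∈ Finset.range n, Q.coeff i * β ^ i) < v β ^ n := by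
      refine Valuation.map_sum_lt v h0 (fun i hi => ?_)
      rw [Finset.mem_range] at hi
      rw [map_mul, map_pow]
      have h2 : v β ^ i ≤ v β ^ n := pow_le_pow_right₀ hge hi.le
      have h3 : 0 < v β ^ i := pow_pos (lt_of_lt_of_le zero_lt_one hge) i
      calc v (Q.coeff i) * v β ^ i < 1 * v β ^ i :=
            mul_lt_mul_of_pos_right (lt_of_le_of_lt (hQ.le i hi) h.lt_one) h3
        _ = v β ^ i := one_mul _
        _ ≤ v β ^ n := h2
    rw [← map_pow, hsum, Valuation.map_neg] at h1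
    exact lt_irrefl _ h1
  rw [← map_pow, hsum, Valuation.map_neg,
    Valuation.map_sum_eq_of_lt v (j := 0) (Finset.mem_range.mpr (Nat.pos_of_ne_zero hn)), pow_zero,
    mul_one, hQ.zero]
  intro i hi
  rw [Finset.mem_sdiff, Finset.mem_range, Finset.mem_singleton] at hi
  rw [pow_zero, mul_one, hQ.zero, map_mul, map_pow]
  have h3 : v β ^ i < 1 := pow_lt_one₀ zero_le hlt hi.2
  calc v (Q.coeff i) * v β ^ i ≤ v ϖ * v β ^ i := mul_le_mul_left (hQ.le i hi.1) _
    _ < v ϖ * 1 := mul_lt_mul_of_pos_left h3 h.val_pos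
    _ = v ϖ := mul_one _

/-- **(T4)** a root of an Eisenstein polynomial of degree `n` generates a totally ramified extension
of degree `n`, of which it is a uniformiser. -/
theorem IsEis.isTot_root (h : IsSH Γ v ϖ) {Q : C[X]} (hQ : IsEis Γ v ϖ Q n) {β : C}
    (hβ : Q.eval β = 0) : IsTot Γ v ϖ β n := by
  have hpow := hQ.val_root_pow h hβ
  refine ⟨hpow, ?_⟩
  have h1 := dvd_index_stabilizer h hpow
  have h2 : (stabilizer Γ β).index ≤ n := by
    rw [← card_orbF h, ← hQ.natDegree]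
    refine card_le_degree_of_subset_roots (fun z hz => ?_)
    obtain ⟨g, rfl⟩ := (mem_orbF h).mp hz
    rw [mem_roots hQ.monic.ne_zero, IsRoot, ← hQ.fix.smul_eval, hβ, smul_zero]
  exact le_antisymm h2 (Nat.le_of_dvd (Nat.pos_of_ne_zero (index_stabilizer_ne_zero h β)) h1)

/-- `Q` is the minimal polynomial of its root. -/
theorem IsEis.eq_mp (h : IsSH Γ v ϖ) {Q : C[X]} (hQ : IsEis Γ v ϖ Q n) {β : C}
    (hβ : Q.eval β = 0) : Q = mp h β := by
  have hT := hQ.isTot_root h hβ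
  have hdvd : mp h β ∣ Q := by
    rw [mp]
    refine Finset.prod_dvd_of_coprime (fun a _ b _ hab => ?_) (fun z hz => ?_)
    · exact pairwise_coprime_X_sub_C (Function.injective_id) hab
    · obtain ⟨g, rfl⟩ := (mem_orbF h).mp hz
      rw [dvd_iff_isRoot, IsRoot, ← hQ.fix.smul_eval, hβ, smul_zero]
  exact eq_of_monic_of_dvd_of_natDegree_le (mp_monic h β) hQ.monic hdvd
    (by rw [natDegree_mp, hT.index, hQ.natDegree])

end Eis

section Transfer

/-- the transfer map `x = L(π) ↦ L(β)`. -/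
noncomputable def eta (h : IsSH Γ v ϖ) (π β x : C) : C := (rep h π x).eval β

open scoped Classical in
/-- the values at `β` of the Lagrange polynomials of the conjugates of `π`. -/
noncomputable def lag (h : IsSH Γ v ϖ) (π β z : C) : C := (Lagrange.basis (orbF h π) id z).eval β

/-- **(T7)** -/
theorem eta_eq_sum (h : IsSH Γ v ϖ) (π β x : C) :
    eta h π β x = ∑ z ∈ orbF h π, lag h π β z * (sec Γ π z • x) := by
  classical
  rw [eta, rep, Lagrange.interpolate_apply, eval_finsetSum]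
  refine Finset.sum_congr rfl (fun z _ => ?_)
  rw [eval_mul, eval_C, mul_comm, lag]

lemma eta_add (h : IsSH Γ v ϖ) (π β x y : C) : eta h π β (x + y) = eta h π β x + eta h π β y := by
  rw [eta, rep_add, eval_add]; rfl

lemma eta_mul_fix (h : IsSH Γ v ϖ) (π β : C) {a : C} (ha : Fix0 Γ a) (x : C) :
    eta h π β (a * x) = a * eta h π β x := by
  rw [eta, rep_mul_fix h π ha, eval_mul, eval_C]; rfl

lemma eta_fix (h : IsSH Γ v ϖ) (π β : C) {a : C} (ha : Fix0 Γ a) : eta h π β a = a := by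
  rw [eta, rep_fix h π ha, eval_C]

lemma eta_one (h : IsSH Γ v ϖ) (π β : C) : eta h π β 1 = 1 := eta_fix h π β Fix0.one

lemma eta_zero (h : IsSH Γ v ϖ) (π β : C) : eta h π β 0 = 0 := eta_fix h π β Fix0.zero

lemma eta_fixBy (h : IsSH Γ v ϖ) {π x : C} (β : C) (hx : FixBy (stabilizer Γ π) x) :
    FixBy (stabilizer Γ β) (eta h π β x) :=
  (fixPoly_rep h hx).eval_fixBy (fixBy_stabilizer β)

variable {π β : C} {n : ℕ}

/-- `η` preserves valuations. -/
theorem val_eta (h : IsSH Γ v ϖ) (hπ : IsTot Γ v ϖ π n) (hβ : v β ^ n = v ϖ) {x : C}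
    (hx : FixBy (stabilizer Γ π) x) : v (eta h π β x) = v x := by
  have hdeg := degree_rep_lt h π x
  rw [hπ.index] at hdeg
  rw [eta, val_eval_congr h hβ hπ.pow (fixPoly_rep h hx) hdeg, eval_rep h hx]

lemma eta_self (h : IsSH Γ v ϖ) (hπ : IsTot Γ v ϖ π n) (hn : 1 < n) : eta h π β π = β := by
  have : (X : C[X]) = rep h π π := by
    refine eq_rep h (fixBy_stabilizer π) ?_ FixPoly.X eval_X
    rw [degree_X, hπ.index]
    exact_mod_cast hn
  rw [eta, ← this, eval_X]

/-- the subring `O_{K₀}`. -/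
def O0 (Γ : Type*) [Group Γ] [MulSemiringAction Γ C] (v : Valuation C Γ₀) : Subring C where
  carrier := {a | Fix0 Γ a ∧ v a ≤ 1}
  mul_mem' := fun ha hb => ⟨ha.1.mul hb.1, by rw [map_mul]; exact mul_le_one' ha.2 hb.2⟩
  one_mem' := ⟨Fix0.one, by rw [map_one]⟩
  add_mem' := fun ha hb => ⟨ha.1.add hb.1, (v.map_add _ _).trans (max_le ha.2 hb.2)⟩
  zero_mem' := ⟨Fix0.zero, by rw [map_zero]; exact zero_le⟩
  neg_mem' := fun ha => ⟨ha.1.neg, by rw [Valuation.map_neg]; exact ha.2⟩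

lemma coeff_div_mod_mem {S : Subring C} {T P : C[X]} (hT : ∀ i, T.coeff i ∈ S)
    (hP : ∀ i, P.coeff i ∈ S) (hPm : P.Monic) (i : ℕ) :
    (T /ₘ P).coeff i ∈ S ∧ (T %ₘ P).coeff i ∈ S := by
  have hT' : T ∈ lifts S.subtype := (lifts_iff_coeff_lifts _).mpr (fun n => ⟨⟨_, hT n⟩, rfl⟩)
  have hP' : P ∈ lifts S.subtype := (lifts_iff_coeff_lifts _).mpr (fun n => ⟨⟨_, hP n⟩, rfl⟩)
  obtain ⟨T₀, rfl⟩ := hT'
  obtain ⟨P₀, rfl, -, hP₀⟩ := lifts_and_natDegree_eq_and_monic hP' hPm
  have h1 := map_mod_divByMonic (p := T₀) S.subtype hP₀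
  constructor
  · show ((mapRingHom S.subtype T₀) /ₘ _).coeff i ∈ S
    rw [coe_mapRingHom, ← h1.1, coeff_map]
    exact ((T₀ /ₘ P₀).coeff i).2
  · show ((mapRingHom S.subtype T₀) %ₘ _).coeff i ∈ S
    rw [coe_mapRingHom, ← h1.2, coeff_map]
    exact ((T₀ %ₘ P₀).coeff i).2

lemma coeff_mul_mem {S : Subring C} {T P : C[X]} (hT : ∀ i, T.coeff i ∈ S)
    (hP : ∀ i, P.coeff i ∈ S) (i : ℕ) : (T * P).coeff i ∈ S := by
  rw [coeff_mul]
  exact S.sum_mem (fun x _ => S.mul_mem (hT _) (hP _))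

lemma val_eval_le_one {L : C[X]} (hL : ∀ i, v (L.coeff i) ≤ 1) {β : C} (hβ : v β ≤ 1) :
    v (L.eval β) ≤ 1 := by
  rw [eval_eq_sum_range]
  refine Valuation.map_sum_le v (fun i _ => ?_)
  rw [map_mul, map_pow]
  exact mul_le_one' (hL i) (pow_le_one₀ zero_le hβ)

/-- **(T5)** `η` is multiplicative modulo `P(β)`, `P` the minimal polynomial of `π`. -/
theorem val_eta_mul_sub (h : IsSH Γ v ϖ) (hπ : IsTot Γ v ϖ π n) (hβ : v β ≤ 1) {x y : C}
    (hx : FixBy (stabilizer Γ π) x) (hy : FixBy (stabilizer Γ π) y) (hx1 : v x ≤ 1)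
    (hy1 : v y ≤ 1) :
    v (eta h π β (x * y) - eta h π β x * eta h π β y) ≤ v ((mp h π).eval β) := by
  set P := mp h π with hP
  set T := rep h π x * rep h π y with hT
  have hPm : P.Monic := mp_monic h π
  have hE := hπ.isEis_mp h
  have hPS : ∀ i, P.coeff i ∈ O0 Γ v := by
    intro i
    refine ⟨fixPoly_mp h π i, ?_⟩
    rcases lt_trichotomy i n with hi | hi | hi
    · exact (hE.le i hi).trans h.lt_one.le
    · rw [hi, ← hE.natDegree, hPm.coeff_natDegree, map_one]
    · rw [coeff_eq_zero_of_natDegree_lt (by rw [hE.natDegree]; exact hi), map_zero]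
      exact zero_le
  have hTS : ∀ i, T.coeff i ∈ O0 Γ v :=
    coeff_mul_mem (fun i => ⟨fixPoly_rep h hx i, hπ.val_coeff_rep_le_one h hx hx1 i⟩)
      (fun i => ⟨fixPoly_rep h hy i, hπ.val_coeff_rep_le_one h hy hy1 i⟩)
  have hdm := coeff_div_mod_mem hTS hPS hPm
  have hdecomp : T %ₘ P + P * (T /ₘ P) = T := modByMonic_add_div T P
  have hM : T %ₘ P = rep h π (x * y) := by
    refine eq_rep h (hx.mul hy) ?_ (fun i => (hdm i).2.1) ?_
    · have := degree_modByMonic_lt T hPm
      rwa [degree_eq_natDegree hPm.ne_zero, natDegree_mp] at this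
    · have h1 := congrArg (eval π) hdecomp
      rw [eval_add, eval_mul, hP, eval_mp_self, zero_mul, add_zero] at h1
      rw [hP, h1, hT, eval_mul, eval_rep h hx, eval_rep h hy]
  have h2 := congrArg (eval β) hdecomp
  rw [eval_add, eval_mul, hM, hT, eval_mul] at h2
  have h3 : eta h π β (x * y) - eta h π β x * eta h π β y = - (eval β P * eval β (T /ₘ P)) := by
    simp only [eta]
    rw [← h2]
    ring
  rw [h3, Valuation.map_neg, map_mul]
  exact mul_le_of_le_one_right zero_le (val_eval_le_one (fun i => (hdm i).1.2) hβ)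

end Transfer

end Fermat.Agent.S56.Font
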